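/-
S56, wall W2 (sub-architect: helper1): interfaces of the Greenberg–Wiles inequality.
Definitions only.  FIXED.

`gwStatement` (`S56/W2/GW.lean`)  ⇐  `gwStatement_of_zmod` (leaf SC, `S56/W2/Scalars.lean`)
                                   +  `gwStatement_zmod`    (leaf R,  `S56/W2/Recip.lean`, helper1)
                                   +  `ecLower`             (wall EC, `S56/W2/EC/Main.lean`,
                                                             sub-architect helper58)
                                   +  `Fermat.Agent.F4.exists_globalDatum` (cluster D, S55).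

`ECLower p` : the lower bound for the number of global classes, for every finite `𝔽_p[G_S]`-module
`A` (`p ∈ S`), `A' = A^*(1)`:

    `#H⁰(G, A') · #Ш¹_S(A) · ∏_{v ∈ S} #H⁰(G_v, A) · #H⁰(ℝ, A)  ≤  #H¹(G_S, A') · #H⁰(G, A)`.

It is (one half of) Tate's global Euler characteristic formula for `A'`, combined with the end of
the Poitou–Tate sequence; it is an equality in fact.  The statement is intrinsic: no `H²`, no
class formation datum.
-/
import Fermat.Agent.S56.Local.Walls
import Fermat.Agent.F4.PT.Defs

set_option autoImplicit false

namespace Fermat.Agent.S56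

open Fermat.Agent.F4 ExtCitation

/-- **Wall W2-EC** (lower bound for `#H¹(G_S, A^*(1))`; Tate's global Euler characteristic). -/
def ECLower (p : ℕ) [Fact p.Prime] : Prop :=
  ∀ (S : Finset Nat.Primes) (A : Rep (ZMod p) GQ), pPrime p ∈ S → Module.Finite (ZMod p) A →
    IsSmooth (levelsS S) A →
    Finite (H1sm (levelsS S) (A.dualTwist (cycloChar p))) ∧
    Nat.card (H0glob (A.dualTwist (cycloChar p))) * Nat.card (sha1sm S A) *
        (∏ v ∈ S, Nat.card (H0loc A v)) * Nat.card (H0arch A)
      ≤ Nat.card (H1sm (levelsS S) (A.dualTwist (cycloChar p))) * Nat.card (H0glob A)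

end Fermat.Agent.S56
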