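/-
S56, wall W2, LEAF R (owner: helper1): the Greenberg–Wiles inequality over `𝔽_p` from reciprocity
(`GlobalDatum`) and the lower bound `ECLower`.  Statement FIXED.

Proof: `S = S₀ ∪ Q`, `N = M^*(1)`, `H = H¹(G_S, M)`, `H' = H¹(G_S, N)`; the local pairings
`w2PairLoc` satisfy the reciprocity law `w2_recip` and are right-nondegenerate, so the counting
lemma `w2_count` gives `#Sel · #H' ≤ #Ш¹_S(M) · ∏ #𝓛_v`; `ECLower` bounds `#H'` from below.
-/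
import Fermat.Agent.S56.W2.Interfaces
import Fermat.Agent.S56.W2.R.RecipLaw
import Fermat.Agent.S56.W2.R.Count
import Fermat.Agent.S56.W2.SC.Trace
import Fermat.Agent.F4.PT.Bridge
import Fermat.Agent.F4.DDT.Main

set_option autoImplicit false

open CategoryTheory Module groupCohomology

namespace Fermat.Agent.S56

open Fermat.Agent.F4 ExtCitation

/-- Over `𝔽_p` a mod `p` cyclotomic character is the Prelude's `cycloChar p`. -/
theorem w2_chi_eq_cycloChar (p : ℕ) [Fact p.Prime] {χ : GQ →* (ZMod p)ˣ} (hχ : IsCycloChar p χ) :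
    χ = cycloChar p := by
  refine MonoidHom.ext fun σ => Units.ext ?_
  have := sc_coe_chi p hχ σ
  simpa using this

section Asm

variable {p : ℕ} [Fact p.Prime] (S₀ Q : Finset Nat.Primes) (M : Rep.{0} (ZMod p) GQ)
  (L : ∀ v : Nat.Primes, AddSubgroup (H1loc M v))

/-- The local conditions as `𝔽_p`-subspaces: `L v` for `v ∈ S₀`, everything otherwise. -/
noncomputable def w2Cond (i : ↥(S₀ ∪ Q)) : Submodule (ZMod p) (H1loc M i.1) :=
  open Classical in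
  if i.1 ∈ S₀ then AddSubgroup.toZModSubmodule p (L i.1) else ⊤

lemma w2Cond_of_mem (i : ↥(S₀ ∪ Q)) (hi : i.1 ∈ S₀) :
    w2Cond S₀ Q M L i = AddSubgroup.toZModSubmodule p (L i.1) := by
  rw [w2Cond, if_pos hi]

lemma w2Cond_of_not_mem (i : ↥(S₀ ∪ Q)) (hi : i.1 ∉ S₀) : w2Cond S₀ Q M L i = ⊤ := by
  rw [w2Cond, if_neg hi]

lemma mem_w2Cond_of_mem (i : ↥(S₀ ∪ Q)) (hi : i.1 ∈ S₀) (x : H1loc M i.1) :
    x ∈ w2Cond S₀ Q M L i ↔ x ∈ L i.1 := by
  rw [w2Cond_of_mem S₀ Q M L i hi]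
  exact Iff.rfl

lemma w2_card_cond (i : ↥(S₀ ∪ Q)) :
    Nat.card ↥(w2Cond S₀ Q M L i)
      = (open Classical in if i.1 ∈ S₀ then Nat.card ↥(L i.1) else Nat.card (H1loc M i.1)) := by
  classical
  by_cases hi : i.1 ∈ S₀
  · rw [if_pos hi, w2Cond_of_mem S₀ Q M L i hi]
    rfl
  · rw [if_neg hi, w2Cond_of_not_mem S₀ Q M L i hi]
    exact Nat.card_congr (Submodule.topEquiv (R := ZMod p) (M := H1loc M i.1)).toEquiv

lemma w2_prod_card_cond (hdisj : Disjoint S₀ Q) :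
    ∏ i : ↥(S₀ ∪ Q), Nat.card ↥(w2Cond S₀ Q M L i)
      = (∏ v ∈ S₀, Nat.card ↥(L v)) * ∏ q ∈ Q, Nat.card (H1loc M q) := by
  classical
  simp only [w2_card_cond]
  rw [Finset.prod_coe_sort (S₀ ∪ Q)
    (fun v => if v ∈ S₀ then Nat.card ↥(L v) else Nat.card (H1loc M v)),
    Finset.prod_union hdisj]
  congr 1
  · exact Finset.prod_congr rfl fun v hv => if_pos hv
  · exact Finset.prod_congr rfl fun q hq => if_neg (Finset.disjoint_right.1 hdisj hq)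

/-- The Selmer group of `G_S` with the local conditions `w2Cond`. -/
noncomputable def w2SelS : Submodule (ZMod p) (H1sm (levelsS (S₀ ∪ Q)) M) :=
  w2Sel (P := fun i : ↥(S₀ ∪ Q) => H1loc M i.1) (fun i => w2Loc (S₀ ∪ Q) M i.1)
    (w2Cond S₀ Q M L)

lemma mem_w2SelS (a : H1sm (levelsS (S₀ ∪ Q)) M) :
    a ∈ w2SelS S₀ Q M L ↔ ∀ i : ↥(S₀ ∪ Q), w2Loc (S₀ ∪ Q) M i.1 a ∈ w2Cond S₀ Q M L i :=
  mem_w2Sel (P := fun i : ↥(S₀ ∪ Q) => H1loc M i.1) _ _ a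

/-- The Selmer set is the image of the Selmer group of `G_S`. -/
lemma w2_selSet_eq :
    selSet (S₀ ∪ Q) M S₀ L = w2Infl (S₀ ∪ Q) M ''
      (w2SelS S₀ Q M L : Set (H1sm (levelsS (S₀ ∪ Q)) M)) := by
  ext x
  constructor
  · rintro ⟨hx, hL⟩
    rw [← w2_range_infl] at hx
    obtain ⟨a, rfl⟩ := hx
    refine ⟨a, ?_, rfl⟩
    rw [SetLike.mem_coe, mem_w2SelS]
    intro i
    by_cases hi : i.1 ∈ S₀
    · rw [mem_w2Cond_of_mem S₀ Q M L i hi]
      exact hL i.1 hi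
    · rw [w2Cond_of_not_mem S₀ Q M L i hi]
      exact Submodule.mem_top
  · rintro ⟨a, ha, rfl⟩
    rw [SetLike.mem_coe, mem_w2SelS] at ha
    refine ⟨?_, fun v hv => ?_⟩
    · rw [← w2_range_infl]
      exact ⟨a, rfl⟩
    · have := ha ⟨v, Finset.mem_union_left Q hv⟩
      rw [mem_w2Cond_of_mem S₀ Q M L _ hv] at this
      exact this

lemma w2_sha_eq :
    w2Sha (P := fun i : ↥(S₀ ∪ Q) => H1loc M i.1) (fun i => w2Loc (S₀ ∪ Q) M i.1)
      = sha1sm (S₀ ∪ Q) M := by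
  ext x
  rw [mem_w2Sha (P := fun i : ↥(S₀ ∪ Q) => H1loc M i.1), w2_mem_sha1sm_iff]
  exact ⟨fun h v hv => h ⟨v, hv⟩, fun h i => h i.1 i.2⟩

end Asm

section Core

variable {p : ℕ} [Fact p.Prime] (S₀ Q : Finset Nat.Primes) (D : GlobalDatum p (S₀ ∪ Q))
  {M N : Rep.{0} (ZMod p) GQ} (θ : M ≃ₗ[ZMod p] (N →ₗ[ZMod p] Fp1 p))
  (hθ : ∀ (g : GQ) (m : M) (n : N), θ (M.ρ g m) n = (Fp1 p).ρ g (θ m (N.ρ g⁻¹ n)))
  (hsm : IsSmooth (levelsS (S₀ ∪ Q)) M) (hfin : Module.Finite (ZMod p) M)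
  (hN : IsSmooth (levelsS (S₀ ∪ Q)) N) (hfinN : Module.Finite (ZMod p) N)
  (L : ∀ v : Nat.Primes, AddSubgroup (H1loc M v))

include D θ hθ hsm hfin hN hfinN in
/-- **W2-R**: `#Sel · #H¹(G_S, N) ≤ #Ш¹_S(M) · ∏ #L_v · ∏ #H¹(G_q, M)` when the dual Selmer group
is killed by the auxiliary primes. -/
theorem w2_gw_core (hdisj : Disjoint S₀ Q)
    (hLfin : ∀ v ∈ S₀, Finite (L v)) (hQfin : ∀ q ∈ Q, Finite (H1loc M q))
    (hkill : ∀ n ∈ unrOutside (S₀ ∪ Q) N, (∀ q ∈ Q, resLoc N q n = 0) → n = 0)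
    (hH'fin : Finite (H1sm (levelsS (S₀ ∪ Q)) N)) :
    (selSet (S₀ ∪ Q) M S₀ L).Finite ∧
      (selSet (S₀ ∪ Q) M S₀ L).ncard * Nat.card (H1sm (levelsS (S₀ ∪ Q)) N)
        ≤ Nat.card ↥(sha1sm (S₀ ∪ Q) M) *
          ((∏ v ∈ S₀, Nat.card ↥(L v)) * ∏ q ∈ Q, Nat.card (H1loc M q)) := by
  classical
  have hHfinM : Module.Finite (ZMod p) (H1sm (levelsS (S₀ ∪ Q)) M) :=
    finite_H1sm_primeTo (levelsS (S₀ ∪ Q)) D.finH1 M hsm hfin
  have hHfin : Finite (H1sm (levelsS (S₀ ∪ Q)) M) := Module.finite_of_finite (ZMod p)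
  have hcfin : ∀ i : ↥(S₀ ∪ Q), Finite ↥(w2Cond S₀ Q M L i) := by
    intro i
    by_cases hi : i.1 ∈ S₀
    · rw [w2Cond_of_mem S₀ Q M L i hi]
      exact hLfin i.1 hi
    · have hq : i.1 ∈ Q := (Finset.mem_union.1 i.2).resolve_left hi
      have := hQfin i.1 hq
      exact Subtype.finite
  -- the counting lemma
  have hcount := w2_count (p := p)
    (P := fun i : ↥(S₀ ∪ Q) => H1loc M i.1)
    (P' := fun i : ↥(S₀ ∪ Q) => H1loc N i.1)
    (r := fun i : ↥(S₀ ∪ Q) => w2Loc (S₀ ∪ Q) M i.1)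
    (r' := fun i : ↥(S₀ ∪ Q) => w2Loc (S₀ ∪ Q) N i.1)
    (B := fun i : ↥(S₀ ∪ Q) => w2PairLoc D θ hθ hN hfinN i)
    (𝓛 := w2Cond S₀ Q M L)
    (fun a n => w2_recip D θ hθ hN hfinN a n)
    (by
      intro n hn
      apply w2Infl_injective (S₀ ∪ Q) N
      rw [map_zero]
      refine hkill _ ?_ fun q hq => ?_
      · rw [← w2_range_infl]
        exact ⟨n, rfl⟩
      · have hqS : q ∈ S₀ ∪ Q := Finset.mem_union_right S₀ hq
        have hq0 : q ∉ S₀ := Finset.disjoint_right.1 hdisj hq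
        refine w2PairLoc_right_nondeg D θ hθ hN hfinN ⟨q, hqS⟩ _ fun a => ?_
        refine hn ⟨q, hqS⟩ a ?_
        rw [w2Cond_of_not_mem S₀ Q M L ⟨q, hqS⟩ hq0]
        exact Submodule.mem_top)
  rw [w2_sha_eq, w2_prod_card_cond S₀ Q M L hdisj] at hcount
  change Nat.card ↥(w2SelS S₀ Q M L) * _ ≤ _ at hcount
  -- the Selmer set
  have hsel := w2_selSet_eq S₀ Q M L
  have hselfin : (selSet (S₀ ∪ Q) M S₀ L).Finite := by
    rw [hsel]
    exact (Set.toFinite _).image _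
  refine ⟨hselfin, ?_⟩
  have hncard : (selSet (S₀ ∪ Q) M S₀ L).ncard = Nat.card ↥(w2SelS S₀ Q M L) := by
    rw [hsel, Set.ncard_image_of_injective _ (w2Infl_injective (S₀ ∪ Q) M)]
    exact (Nat.card_coe_set_eq _).symm
  rw [hncard]
  exact hcount

end Core

/-- **Leaf R**: W2-R + assembly over `𝔽_p`. -/
theorem gwStatement_zmod (p : ℕ) [Fact p.Prime] (hp2 : p ≠ 2)
    (hD : ∀ S : Finset Nat.Primes, pPrime p ∈ S → Nonempty (GlobalDatum p S))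
    (hEC : ECLower p) : GWStatement (ZMod p) p := by
  classical
  intro M χ S₀ Q L hχ hfin hsm hpS₀ hdisj hH0 hLfin hQfin hkill
  obtain rfl := w2_chi_eq_cycloChar p hχ
  have hpS : pPrime p ∈ S₀ ∪ Q := Finset.mem_union_left Q hpS₀
  obtain ⟨D⟩ := hD (S₀ ∪ Q) hpS
  have hfd : FiniteDimensional (ZMod p) M := hfin
  obtain ⟨θ, hθ⟩ := exists_dualTwistEquiv M
  have hN : IsSmooth (levelsS (S₀ ∪ Q)) (M.dualTwist (cycloChar p)) :=
    isSmooth_dualTwist (S₀ ∪ Q) hpS M hsm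
  have hfinN : Module.Finite (ZMod p) (M.dualTwist (cycloChar p)) := by
    show Module.Finite (ZMod p) (Module.Dual (ZMod p) M)
    infer_instance
  obtain ⟨hH'fin, hEC'⟩ := hEC (S₀ ∪ Q) M hpS hfin hsm
  obtain ⟨hselfin, hcount⟩ :=
    w2_gw_core S₀ Q D θ hθ hsm hfin hN hfinN L hdisj hLfin hQfin hkill hH'fin
  refine ⟨hselfin, ?_⟩
  -- arithmetic
  have hg1 : Nat.card ↥(H0glob M) = 1 := by
    rw [hH0]
    exact Nat.card_unique
  have hfinNt : Finite (M.dualTwist (cycloChar p)) := Module.finite_of_finite (ZMod p)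
  have hg' : 0 < Nat.card ↥(H0glob (M.dualTwist (cycloChar p))) := Nat.card_pos
  have hHfinM : Module.Finite (ZMod p) (H1sm (levelsS (S₀ ∪ Q)) M) :=
    finite_H1sm_primeTo (levelsS (S₀ ∪ Q)) D.finH1 M hsm hfin
  have hHfin : Finite (H1sm (levelsS (S₀ ∪ Q)) M) := Module.finite_of_finite (ZMod p)
  have hsh : 0 < Nat.card ↥(sha1sm (S₀ ∪ Q) M) := Nat.card_pos
  rw [hg1, mul_one] at hEC'
  generalize (selSet (S₀ ∪ Q) M S₀ L).ncard = s at hcount ⊢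
  generalize ∏ v ∈ S₀ ∪ Q, Nat.card ↥(H0loc M v) = h0 at hEC' ⊢
  generalize Nat.card ↥(H0arch M) = ar at hEC' ⊢
  generalize Nat.card ↥(sha1sm (S₀ ∪ Q) M) = sh at hEC' hcount hsh
  generalize Nat.card ↥(H0glob (M.dualTwist (cycloChar p))) = g' at hEC' hg'
  generalize Nat.card (H1sm (levelsS (S₀ ∪ Q)) (M.dualTwist (cycloChar p))) = h' at hEC' hcount
  generalize (∏ v ∈ S₀, Nat.card ↥(L v)) * ∏ q ∈ Q, Nat.card (H1loc M q) = PL at hcount ⊢
  have e1 : sh * h0 * ar ≤ h' := by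
    calc sh * h0 * ar = 1 * sh * h0 * ar := by rw [one_mul]
      _ ≤ g' * sh * h0 * ar := by
          exact Nat.mul_le_mul_right _ (Nat.mul_le_mul_right _ (Nat.mul_le_mul_right _ hg'))
      _ ≤ h' := hEC'
  have e2 : s * h0 * ar * sh ≤ PL * sh := by
    calc s * h0 * ar * sh = s * (sh * h0 * ar) := by ring
      _ ≤ s * h' := Nat.mul_le_mul_left _ e1
      _ ≤ sh * PL := hcount
      _ = PL * sh := mul_comm _ _
  exact Nat.le_of_mul_le_mul_right e2 hsh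

end Fermat.Agent.S56
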