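/-
S56, wall W2, LEAF SC (DONE, helper71; helper lemmas in `S56/W2/SC/`): restriction of scalars from `k` to `𝔽_p`.
Statement FIXED (sub-architect helper1).

Plan.  `k` is a finite field with `(p : k) = 0`: `Algebra (ZMod p) k` (`ZMod.algebra` with `CharP k p`).
For `M : Rep k GQ` let `M₀ : Rep (ZMod p) GQ` be `M` with scalars restricted (same carrier, same
action).  Cocycles, coboundaries and level-constancy do not see the scalars, so
`H1sm levelsAll M`, `H1loc M v`, `resLoc`, `unrOutside`, `selSet`, `H0loc`, `H0arch`, `H0glob` of `M`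
and of `M₀` are the same sets (additive isomorphisms commuting with everything); transport `L v`.
`χ` with `IsCycloChar p χ` is `algebraMap ∘ cycloChar p` (`coe_cycloChar`, `cycloExp`), and
`(M.dualTwist χ)₀ ≅ M₀.dualTwist (cycloChar p)` by `φ ↦ Tr_{k/𝔽_p} ∘ φ` (equivariant; bijective because
the trace form of `k/𝔽_p` is nondegenerate, `Algebra.traceForm_nondegenerate`); this transports the
hypothesis on the classes of the dual.  `IsCycloChar p (cycloChar p)` for `k = ZMod p`.
-/
import Fermat.Agent.S56.W2.Interfaces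
import Fermat.Agent.S56.W2.SC.Trace

set_option autoImplicit false
set_option linter.style.haveILetI false

namespace Fermat.Agent.S56

open Fermat.Agent.F4 ExtCitation

/-- **Leaf SC**: the Greenberg–Wiles inequality over `k` from the one over `𝔽_p`. -/
theorem gwStatement_of_zmod {k : Type} [Field k] [Finite k] (p : ℕ) [Fact p.Prime]
    (hpk : (p : k) = 0) (h : GWStatement (ZMod p) p) : GWStatement k p := by
  intro M χ S₀ Q L hχ hfin hsm hp hdisj hH0 hLfin hH1fin hdual
  haveI : CharP k p := (CharP.charP_iff_prime_eq_zero (Fact.out : p.Prime)).2 hpk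
  letI : Algebra (ZMod p) k := ZMod.algebra k p
  haveI : Module.Finite k M.V := hfin
  haveI : Finite M.V := Module.finite_of_finite k
  haveI : Finite (scRes (ZMod p) M).V := (inferInstance : Finite M.V)
  -- the identity `M → M₀`
  have hf : ∀ (g : GQ) (a : M.V),
      scId (ZMod p) M (M.ρ g a) = (scRes (ZMod p) M).ρ g (scId (ZMod p) M a) :=
    scId_equivariant (ZMod p) M
  -- the trace isomorphism of the duals
  have hτ : ∀ (g : GQ) (φ : (M.dualTwist χ).V),
      scTrEquiv (ZMod p) M χ (cycloChar p) ((M.dualTwist χ).ρ g φ)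
        = ((scRes (ZMod p) M).dualTwist (cycloChar p)).ρ g
            (scTrEquiv (ZMod p) M χ (cycloChar p) φ) :=
    scTrEquiv_equivariant (ZMod p) M χ (cycloChar p) (sc_coe_chi p hχ)
  obtain ⟨hfinSel, hineq⟩ := h (scRes (ZMod p) M) (cycloChar p) S₀ Q
    (fun v => (L v).map (scLoc (scId (ZMod p) M) hf v).toAddMonoidHom)
    (sc_isCycloChar_cycloChar p) Module.Finite.of_finite
    (sc_isSmooth _ (scId (ZMod p) M) hf hsm) hp hdisj
    (sc_H0glob_eq_bot (scId (ZMod p) M) hf hH0)
    (fun v hv => by
      haveI := hLfin v hv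
      exact Finite.of_equiv _ ((scLoc (scId (ZMod p) M) hf v).addSubgroupMap (L v)).toEquiv)
    (fun q hq => by
      haveI := hH1fin q hq
      exact Finite.of_equiv _ (scLoc (scId (ZMod p) M) hf q).toEquiv)
    (fun n hn hres => by
      have h1 : (scGlob (scTrEquiv (ZMod p) M χ (cycloChar p)) hτ).symm n
          ∈ unrOutside (S₀ ∪ Q) (M.dualTwist χ) := by
        rw [← scGlob_mem_unrOutside_iff (scTrEquiv (ZMod p) M χ (cycloChar p)) hτ,
          AddEquiv.apply_symm_apply]
        exact hn
      have h2 := hdual _ h1 (fun q hq => by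
        apply (scLoc (scTrEquiv (ZMod p) M χ (cycloChar p)) hτ q).injective
        rw [scLoc_resLoc, AddEquiv.apply_symm_apply, map_zero]
        exact hres q hq)
      have h3 := congrArg (scGlob (scTrEquiv (ZMod p) M χ (cycloChar p)) hτ) h2
      rwa [AddEquiv.apply_symm_apply, map_zero] at h3)
  refine ⟨sc_finite_selSet (scId (ZMod p) M) hf _ _ L hfinSel, ?_⟩
  rw [sc_ncard_selSet (scId (ZMod p) M) hf, sc_card_H0arch (scId (ZMod p) M) hf] at hineq
  simp only [sc_card_H0loc (scId (ZMod p) M) hf, sc_card_map (scId (ZMod p) M) hf,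
    sc_card_H1loc (scId (ZMod p) M) hf] at hineq
  exact hineq

end Fermat.Agent.S56
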