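/-
S56, WALL W2 (sub-architect: helper1): the Greenberg–Wiles inequality.  Statement FIXED
(`GWStatement` is defined in `S56/Local/Walls.lean`; read the header there).

Assembly (sorry-free in this file):
  `gwStatement`  ⇐  `gwStatement_of_zmod` (leaf SC, `W2/Scalars.lean`: scalars `k → 𝔽_p`)
                 +  `gwStatement_zmod`    (leaf R, `W2/Recip.lean`: reciprocity + linear algebra)
                 +  `ecLower`             (wall EC, `W2/EC/Main.lean`: Tate's Euler characteristic)
                 +  `exists_globalDatum`  (cluster D).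
Proof plan (blueprint-S56.md §3, W2-R + W2-EC), `S = S₀ ⊔ Q`, `N = M^*(1)`:
 (W2-R)  `#Sel ≤ #Ш¹_S(M) · ∏ #L_v · #Sel^* / #H¹(G_S, N)`  from local pairings + reciprocity only;
         `Sel^* = 0` by the last hypothesis + right-nondegeneracy of the local pairing at `q ∈ Q`;
 (W2-EC) `#H¹(G_S, N) ≥ #Ш¹_S(M) · ∏_{v ∈ S} #H⁰(G_v, M) · #H⁰(ℝ, M)`  (`ECLower`).
-/
import Fermat.Agent.S56.W2.Scalars
import Fermat.Agent.S56.W2.Recip
import Fermat.Agent.S56.W2.EC.Main

set_option autoImplicit false

namespace Fermat.Agent.S56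

open Fermat.Agent.F4 ExtCitation

/-- **W2**: the Greenberg–Wiles inequality. -/
theorem gwStatement {k : Type} [Field k] [Finite k] (p : ℕ) [Fact p.Prime] (hp2 : p ≠ 2)
    (hpk : (p : k) = 0) : GWStatement k p :=
  gwStatement_of_zmod p hpk
    (gwStatement_zmod p hp2 (fun S hpS => exists_globalDatum hp2 S hpS) (ecLower p hp2))

end Fermat.Agent.S56
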